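/-
S55 / 90-R3-WIRING, coefficient adapters (helper41).

Everything the top layer needs to know about `M' = M.dualTwist (cycloChar p)` and
`μ = ofChar (cycloChar p)` in the Prelude vocabulary:

* `cycloChar_eq_one_of_fixes` : `σ` fixes the `p`-th roots of unity ⟹ `cycloChar p σ = 1`;
* `cycloChar_inertia` : inertia at `q ∉ S ∋ p` is killed by `cycloChar p`;
* `dualTwist_smooth`, `dualTwist_unramified` : the hypotheses `hsm`, `hMur` of S55 pass from `M` to
  `M.dualTwist (cycloChar p)`; `mu_smooth`, `mu_unramified` : the same for `μ`;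
* `pair M χ : M.dualTwist χ →ₗ M →ₗ ofChar χ`, `(f, m) ↦ f m`, is equivariant
  (`pair_equivariant`) and perfect (`pair_bijective`), for any character `χ`.
-/
import Mathlib
import Fermat.Prelude.Def_GroupCohomology_ContinuousUnramified
import Fermat.Agent.S55.UnrKummer72

set_option autoImplicit false
set_option linter.style.haveILetI false

open CategoryTheory groupCohomology ExtCitation

noncomputable section

namespace Fermat.Agent.S55.Wire41.Coeff

/-- `ℚ̄` -/
abbrev Qb : Type := AlgebraicClosure ℚ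

/-- `G_ℚ` -/
abbrev GQ : Type := Qb ≃ₐ[ℚ] Qb

section Pairing

universe u

variable {k G : Type u} [Field k] [Group G] (M : Rep k G) (χ : G →* kˣ)

/-- The evaluation pairing `M*(χ) × M → k(χ)`. -/
def pair : M.dualTwist χ →ₗ[k] M →ₗ[k] ofChar (k := k) χ :=
  (LinearMap.id : Module.Dual k M →ₗ[k] Module.Dual k M)

@[simp] lemma pair_apply (f : M.dualTwist χ) (m : M) :
    pair M χ f m = (f : Module.Dual k M) m := rfl

lemma ofChar_ρ_apply (g : G) (x : ofChar (k := k) χ) :
    (ofChar (k := k) χ).ρ g x = ((χ g : k) • (x : k) : k) := rfl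

/-- Equivariance: `⟨g f, g m⟩ = g ⟨f, m⟩`. -/
theorem pair_equivariant (g : G) (f : M.dualTwist χ) (m : M) :
    pair M χ ((M.dualTwist χ).ρ g f) (M.ρ g m) = (ofChar (k := k) χ).ρ g (pair M χ f m) := by
  rw [Rep.dualTwist_ρ_apply, ofChar_ρ_apply]
  change ((χ g : k) • ((f : Module.Dual k M) ∘ₗ M.ρ g⁻¹)) (M.ρ g m) = _
  rw [LinearMap.smul_apply, LinearMap.comp_apply]
  have h : M.ρ g⁻¹ (M.ρ g m) = m := by
    rw [← Module.End.mul_apply, ← map_mul, inv_mul_cancel, map_one, Module.End.one_apply]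
  rw [h]
  rfl

/-- Equivariance, second form: `⟨g f, m⟩ = g ⟨f, g⁻¹ m⟩`. -/
theorem pair_equivariant' (g : G) (f : M.dualTwist χ) (m : M) :
    pair M χ ((M.dualTwist χ).ρ g f) m = (ofChar (k := k) χ).ρ g (pair M χ f (M.ρ g⁻¹ m)) := by
  have h : M.ρ g (M.ρ g⁻¹ m) = m := by
    rw [← Module.End.mul_apply, ← map_mul, mul_inv_cancel, map_one, Module.End.one_apply]
  rw [← pair_equivariant, h]

/-- Perfectness: `M*(χ) → Hom_k(M, k(χ))` is bijective. -/
theorem pair_bijective : Function.Bijective (pair M χ) := Function.bijective_id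

/-- Left nondegeneracy in elementary form. -/
theorem pair_left_nondeg (f : M.dualTwist χ) (h : ∀ m, pair M χ f m = 0) : f = 0 :=
  LinearMap.ext h

/-- Right nondegeneracy in elementary form. -/
theorem pair_right_nondeg (m : M) (h : ∀ f, pair M χ f m = 0) : m = 0 :=
  (Module.forall_dual_apply_eq_zero_iff k m).1 h

end Pairing

section Cyclo

variable {p : ℕ} [Fact p.Prime]

/-- `cycloChar p σ = 1` as soon as `σ` fixes every `p`-th root of unity. -/
theorem cycloChar_eq_one_of_fixes {σ : GQ} (h : ∀ ζ : Qb, ζ ^ p = 1 → σ ζ = ζ) :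
    cycloChar p σ = 1 := by
  haveI : NeZero p := ⟨(Fact.out : p.Prime).ne_zero⟩
  have hu := modularCyclotomicCharacter.unique (L := Qb) (card_rootsOfUnity_eq_self p)
    (σ : Qb ≃+* Qb) (c := 1) (fun t ht => by
      have ht' : (t : Qb) ^ p = 1 := by
        have := (mem_rootsOfUnity p t).1 ht
        rw [← Units.val_pow_eq_pow_val, this, Units.val_one]
      rw [ZMod.val_one'' (by
        intro h1
        exact (Fact.out : p.Prime).one_lt.ne' h1), pow_one]
      exact h _ ht')
  apply Units.ext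
  rw [Units.val_one]
  exact hu.symm

variable {S : Finset Nat.Primes}

/-- Inertia at a prime outside `S ∋ p` is killed by the mod `p` cyclotomic character. -/
theorem cycloChar_inertia (hpS : pPrime p ∈ S) (q : Nat.Primes) (hq : q ∉ S)
    (A : ValuationSubring Qb) (hA : A.LiesOverPrime (q : ℕ)) (g : GQ)
    (hg : g ∈ A.inertiaSubgroupIn ℚ) : cycloChar p g = 1 :=
  cycloChar_eq_one_of_fixes fun _ hζ =>
    UnrKummer72.inertia_fixes_rootOfUnity Fact.out hA (UnrKummer72.coprime_of_not_mem hpS hq) hg hζ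

/-- `cycloChar p` is trivial on the fixing subgroup of `ℚ(ζ)` for any `ζ` generating the `p`-th
roots of unity; in particular it is trivial on an open subgroup. -/
theorem exists_finite_cycloChar_eq_one :
    ∃ F : IntermediateField ℚ Qb, FiniteDimensional ℚ F ∧
      ∀ s ∈ F.fixingSubgroup, cycloChar p s = 1 := by
  classical
  haveI : NeZero p := ⟨(Fact.out : p.Prime).ne_zero⟩
  haveI : NeZero (p : Qb) := ⟨Nat.cast_ne_zero.mpr (NeZero.ne p)⟩
  obtain ⟨ζ, hζ⟩ := HasEnoughRootsOfUnity.exists_primitiveRoot Qb p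
  refine ⟨IntermediateField.adjoin ℚ {ζ}, ?_, fun s hs => ?_⟩
  · exact IntermediateField.adjoin.finiteDimensional
      ((AlgebraicClosure.isAlgebraic ℚ).isIntegral.isIntegral ζ)
  · apply cycloChar_eq_one_of_fixes
    intro η hη
    obtain ⟨i, -, rfl⟩ := hζ.eq_pow_of_pow_eq_one hη
    rw [IntermediateField.mem_fixingSubgroup_iff] at hs
    rw [map_pow, hs ζ (IntermediateField.mem_adjoin_simple_self ℚ ζ)]

end Cyclo

section Transfer

variable {p : ℕ} [Fact p.Prime] {S : Finset Nat.Primes} (M : Rep (ZMod p) GQ)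

/-- `hsm` passes to the Tate dual (for finite-dimensional `M`). -/
theorem dualTwist_smooth [FiniteDimensional (ZMod p) M]
    (hsm : ∀ m : M, ∃ F : IntermediateField ℚ Qb, FiniteDimensional ℚ F ∧
      ∀ s ∈ F.fixingSubgroup, M.ρ s m = m) :
    ∀ f : M.dualTwist (cycloChar p), ∃ F : IntermediateField ℚ Qb, FiniteDimensional ℚ F ∧
      ∀ s ∈ F.fixingSubgroup, (M.dualTwist (cycloChar p)).ρ s f = f := by
  classical
  intro f
  -- a finite extension trivialising `M`
  obtain ⟨t, ht⟩ := (Module.finite_def.mp (inferInstance : Module.Finite (ZMod p) M))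
  choose Fm hFm1 hFm2 using hsm
  let F₁ : IntermediateField ℚ Qb := ⨆ m ∈ t, Fm m
  haveI : ∀ m, FiniteDimensional ℚ (Fm m) := hFm1
  haveI hF₁fin : FiniteDimensional ℚ F₁ := IntermediateField.finiteDimensional_iSup_of_finset
  have hF₁triv : ∀ s ∈ F₁.fixingSubgroup, M.ρ s = 1 := by
    intro s hs
    have hfix : ∀ m ∈ t, M.ρ s m = m := fun m hm =>
      hFm2 m s (IntermediateField.fixingSubgroup_antitone (le_biSup Fm hm) hs)
    apply LinearMap.ext_on_range (v := fun m : (t : Set M) => (m : M))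
    · rw [Subtype.range_coe]; exact ht
    · rintro ⟨m, hm⟩
      exact hfix m hm
  obtain ⟨F₂, hF₂fin, hF₂⟩ := exists_finite_cycloChar_eq_one (p := p)
  haveI := hF₂fin
  refine ⟨F₁ ⊔ F₂, IntermediateField.finiteDimensional_sup F₁ F₂, fun s hs => ?_⟩
  have hs1 : s ∈ F₁.fixingSubgroup := IntermediateField.fixingSubgroup_antitone le_sup_left hs
  have hs2 : s ∈ F₂.fixingSubgroup := IntermediateField.fixingSubgroup_antitone le_sup_right hs
  rw [Rep.dualTwist_ρ_apply, hF₂ s hs2, hF₁triv s⁻¹ (inv_mem hs1), Units.val_one, one_smul]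
  exact LinearMap.ext fun _ => rfl

/-- `hMur` passes to the Tate dual (when `p ∈ S`). -/
theorem dualTwist_unramified (hpS : pPrime p ∈ S)
    (hMur : ∀ q : Nat.Primes, q ∉ S → ∀ A : ValuationSubring Qb,
      A.LiesOverPrime (q : ℕ) → ∀ g ∈ A.inertiaSubgroupIn ℚ, M.ρ g = 1) :
    ∀ q : Nat.Primes, q ∉ S → ∀ A : ValuationSubring Qb,
      A.LiesOverPrime (q : ℕ) → ∀ g ∈ A.inertiaSubgroupIn ℚ,
        (M.dualTwist (cycloChar p)).ρ g = 1 := by
  intro q hq A hA g hg
  ext f : 1
  rw [Rep.dualTwist_ρ_apply, cycloChar_inertia hpS q hq A hA g hg,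
    hMur q hq A hA g⁻¹ (inv_mem hg), Units.val_one, one_smul]
  exact LinearMap.ext fun _ => rfl

/-- finite-dimensionality of the Tate dual -/
instance dualTwist_finiteDimensional [FiniteDimensional (ZMod p) M] :
    FiniteDimensional (ZMod p) (M.dualTwist (cycloChar p)) :=
  inferInstanceAs (FiniteDimensional (ZMod p) (Module.Dual (ZMod p) M))

/-- `μ = 𝔽_p(1)` is smooth. -/
theorem mu_smooth : ∀ x : ofChar (k := ZMod p) (cycloChar p),
    ∃ F : IntermediateField ℚ Qb, FiniteDimensional ℚ F ∧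
      ∀ s ∈ F.fixingSubgroup, (ofChar (k := ZMod p) (cycloChar p)).ρ s x = x := by
  intro x
  obtain ⟨F, hF, h⟩ := exists_finite_cycloChar_eq_one (p := p)
  refine ⟨F, hF, fun s hs => ?_⟩
  rw [ofChar_ρ_apply, h s hs]
  simp

/-- `μ = 𝔽_p(1)` is unramified outside `S ∋ p`. -/
theorem mu_unramified (hpS : pPrime p ∈ S) :
    ∀ q : Nat.Primes, q ∉ S → ∀ A : ValuationSubring Qb,
      A.LiesOverPrime (q : ℕ) → ∀ g ∈ A.inertiaSubgroupIn ℚ,
        (ofChar (k := ZMod p) (cycloChar p)).ρ g = 1 := by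
  intro q hq A hA g hg
  refine LinearMap.ext fun x => ?_
  rw [ofChar_ρ_apply, cycloChar_inertia hpS q hq A hA g hg]
  simp

end Transfer

end Fermat.Agent.S55.Wire41.Coeff
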