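/-
S55 / 90-R3-WIRING, second seat (helper41), part (a1): the coefficient modules in the vocabulary of
`Contract34` / `Profin15.globalLevels` / `Dualizing59`.

* `mu_eq_ofChar` : `Contract34.mu p = ofChar (cycloChar p)` (definitional);
* `isSRep_mu`, `isSRep_dualTwist` : `μ` and the Tate dual of an `S`-representation are
  `S`-representations (`p ∈ S`);
* `isSmooth_of_isSRep`, `exists_level_fixing` : `S`-representations are smooth for
  `globalLevels S`; `hμ` in the binder shape of `Dualizing59.Ind.diag`;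
* `pairMu`, `pairMu_equivariant`, `pairMu_bijective` : the evaluation pairing
  `M.dualTwist (cycloChar p) × M → Contract34.mu p` in the binders of `Dualizing11.formulaA`.
-/
import Fermat.Agent.S55.Wire41.Coeff
import Fermat.Agent.S55.Contract34
import Fermat.Agent.S55.ProfinGlobal22.SRep
import Fermat.Agent.S55.Profin15.Cohomology

set_option autoImplicit false

open CategoryTheory groupCohomology ExtCitation

noncomputable section

namespace Fermat.Agent.S55.Wire41.SRep

open Fermat.Agent.S55.Profin15 Fermat.Agent.S55.Contract34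
open Fermat.Agent.Lib.FrobeniusExists (Qb GQ)

variable {p : ℕ} [Fact p.Prime] {S : Finset Nat.Primes}

/-- `Contract34.mu p` is the Prelude's `ofChar (cycloChar p)`. -/
theorem mu_eq_ofChar : mu p = ofChar (k := ZMod p) (cycloChar p) := rfl

instance mu_finiteDimensional : FiniteDimensional (ZMod p) (mu p) :=
  inferInstanceAs (FiniteDimensional (ZMod p) (ZMod p))

/-- `μ_p` is an `S`-representation when `p ∈ S`. -/
theorem isSRep_mu (hpS : pPrime p ∈ S) : IsSRep p S (mu p) :=
  ProfinGlobal22.sRepStatement p S (mu p) Coeff.mu_smooth (Coeff.mu_unramified hpS)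

/-- `hμ` in the binder shape of `Dualizing59` (`Ind.diag`, `YObj`, …). -/
theorem exists_level_fixing_mu (hpS : pPrime p ∈ S) :
    ∃ U ∈ (globalLevels S).levels, ∀ s ∈ U, ∀ m : mu p, (mu p).ρ s m = m := by
  obtain ⟨U, hU, h⟩ := isSRep_mu (p := p) hpS
  exact ⟨U, hU, fun s hs m => by rw [h s hs]; rfl⟩

/-- A level on which `cycloChar p` is trivial. -/
theorem exists_level_cycloChar (hpS : pPrime p ∈ S) :
    ∃ U ∈ (globalLevels S).levels, ∀ s ∈ U, cycloChar p s = 1 := by
  obtain ⟨U, hU, h⟩ := exists_level_fixing_mu (p := p) hpS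
  refine ⟨U, hU, fun s hs => ?_⟩
  have h1 : ((cycloChar p s : ZMod p) • (1 : ZMod p) : ZMod p) = 1 := h s hs (1 : ZMod p)
  apply Units.ext
  rw [Units.val_one]
  simpa using h1

/-- The Tate dual of an `S`-representation is an `S`-representation (`p ∈ S`). -/
theorem isSRep_dualTwist (hpS : pPrime p ∈ S) {M : Rep.{0} (ZMod p) GQ} (hM : IsSRep p S M) :
    IsSRep p S (M.dualTwist (cycloChar p)) := by
  obtain ⟨U, hU, hUM⟩ := hM
  obtain ⟨V, hV, hVχ⟩ := exists_level_cycloChar (p := p) hpS
  obtain ⟨W, hW, hle⟩ := (globalLevels S).directed U hU V hV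
  refine ⟨W, hW, fun s hs => ?_⟩
  have hsU : s ∈ U := (hle hs).1
  have hsV : s ∈ V := (hle hs).2
  refine LinearMap.ext fun f => ?_
  rw [Rep.dualTwist_ρ_apply, hVχ s hsV, hUM s⁻¹ (inv_mem hsU), Units.val_one, one_smul]
  exact LinearMap.ext fun _ => rfl

/-- `S`-representations are smooth for `globalLevels S`. -/
theorem isSmooth_of_isSRep {M : Rep.{0} (ZMod p) GQ} (hM : IsSRep p S M) :
    (globalLevels S).IsSmooth M := by
  obtain ⟨U, hU, h⟩ := hM
  exact fun m => ⟨U, hU, fun s hs => by rw [h s hs]; rfl⟩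

/-- A level fixing an `S`-representation pointwise (binder shape of `Dualizing59`). -/
theorem exists_level_fixing {M : Rep.{0} (ZMod p) GQ} (hM : IsSRep p S M) :
    ∃ U ∈ (globalLevels S).levels, ∀ s ∈ U, ∀ m : M, M.ρ s m = m := by
  obtain ⟨U, hU, h⟩ := hM
  exact ⟨U, hU, fun s hs m => by rw [h s hs]; rfl⟩

/-- The evaluation pairing `M*(1) × M → μ_p`. -/
def pairMu (M : Rep.{0} (ZMod p) GQ) :
    M.dualTwist (cycloChar p) →ₗ[ZMod p] M →ₗ[ZMod p] mu p :=
  Coeff.pair M (cycloChar p)

@[simp] lemma pairMu_apply (M : Rep.{0} (ZMod p) GQ) (f : M.dualTwist (cycloChar p)) (m : M) :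
    pairMu M f m = (f : Module.Dual (ZMod p) M) m := rfl

/-- equivariance, in the binders of `Dualizing11.formulaA` -/
theorem pairMu_equivariant (M : Rep.{0} (ZMod p) GQ) :
    ∀ (g : GQ) (m' : M.dualTwist (cycloChar p)) (m : M),
      pairMu M ((M.dualTwist (cycloChar p)).ρ g m') (M.ρ g m) = (mu p).ρ g (pairMu M m' m) :=
  fun g m' m => Coeff.pair_equivariant M (cycloChar p) g m' m

/-- perfectness, in the binders of `Dualizing11.formulaA` -/
theorem pairMu_bijective (M : Rep.{0} (ZMod p) GQ) : Function.Bijective (pairMu M) :=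
  Coeff.pair_bijective M (cycloChar p)

end Fermat.Agent.S55.Wire41.SRep
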