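/-
S55 / 90-R3-WIRING, second seat (helper41), part (W-b): the Prelude Tate–Shafarevich groups as
kernels of the `Dualizing59.Map` localisation maps at the FINITE places `q ∈ S` only.

* `isCont_of_isContinuous`, `isContinuous_of_isCont` : the two continuity predicates agree;
* `isCont_local S r`, `isEquivariant_res r M`;
* `locH2 S M q`, `locH1 S A q` : `Dualizing59.H2map / H1map` along `primeLocalToGlobal q`,
  and `locH2_eq_res₂`, `locH1_eq_res₁` (= helper15's `IsContinuous.res₂ / res₁`);
* `mem_sha₂_iff_locH2`, `H1ToH1_mem_sha₁_iff_locH1` (p odd: the archimedean index drops out).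
-/
import Fermat.Agent.S55.Profin15.Sha
import Fermat.Agent.S55.Dualizing59.Map
import Fermat.Agent.S55.ProfinLocal31.Sha

set_option autoImplicit false

open CategoryTheory groupCohomology ExtCitation

noncomputable section

namespace Fermat.Agent.S55.Wire41.ShaMap

open Fermat.Agent.S55.Profin15 Fermat.Agent.S55.Dualizing59
open Fermat.Agent.Lib.FrobeniusExists

section generic

universe u

variable {G H : Type u} [Group G] [Group H] {𝒱 : LevelStr H} {𝒰 : LevelStr G} {f : H →* G}

/-- helper15's continuity implies helper59's. -/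
theorem isCont_of_isContinuous (hf : LevelStr.IsContinuous 𝒱 𝒰 f) : IsCont 𝒱 𝒰 f :=
  fun U hU => by
    obtain ⟨V, hV, hle⟩ := hf U hU
    exact ⟨V, hV, fun s hs => hle hs⟩

/-- helper59's continuity implies helper15's. -/
theorem isContinuous_of_isCont (hf : IsCont 𝒱 𝒰 f) : LevelStr.IsContinuous 𝒱 𝒰 f :=
  fun U hU => by
    obtain ⟨V, hV, h⟩ := hf U hU
    exact ⟨V, hV, fun s hs => h s hs⟩

variable {k : Type u} [CommRing k] (f) (M : Rep.{u} k G)

/-- The identity is equivariant from `M` to its restriction. -/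
theorem isEquivariant_res :
    IsEquivariant f M (Rep.res f M) (LinearMap.id : M →ₗ[k] Rep.res f M) :=
  fun _ _ => rfl

variable {f}

/-- `Dualizing59.H2map` at the identity coefficient map is helper15's restriction. -/
theorem H2map_id_eq_res₂ (hf : LevelStr.IsContinuous 𝒱 𝒰 f) :
    H2map (isCont_of_isContinuous hf) (isEquivariant_res f M) = hf.res₂ M := by
  apply LinearMap.ext
  intro x
  obtain ⟨c, rfl⟩ := Submodule.Quotient.mk_surjective _ x
  rfl

/-- `Dualizing59.H1map` at the identity coefficient map is helper15's restriction. -/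
theorem H1map_id_eq_res₁ (hf : LevelStr.IsContinuous 𝒱 𝒰 f) :
    H1map (isCont_of_isContinuous hf) (isEquivariant_res f M) = hf.res₁ M := by
  apply LinearMap.ext
  intro x
  obtain ⟨c, rfl⟩ := Submodule.Quotient.mk_surjective _ x
  rfl

end generic

variable (S : Finset Nat.Primes)

/-- Every homomorphism to `G_ℚ` is continuous (in helper59's sense) from `pullLevels` to the
`S`-levels. -/
theorem isCont_local {H : Type} [Group H] (r : H →* GQ) :
    IsCont (pullLevels r) (globalLevels S) r :=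
  isCont_of_isContinuous (isContinuous_pullLevels S r)

/-- Localisation at `q ∈ S` in level cohomology, degree 2, as a `Dualizing59.H2map`. -/
def locH2 {k : Type} [CommRing k] (M : Rep k GQ) (q : ↥S) :
    (globalLevels S).H2 M →ₗ[k]
      (pullLevels (primeLocalToGlobal q.1)).H2 (Rep.res (primeLocalToGlobal q.1) M) :=
  H2map (isCont_local S (primeLocalToGlobal q.1)) (isEquivariant_res (primeLocalToGlobal q.1) M)

/-- Localisation at `q ∈ S` in level cohomology, degree 1, as a `Dualizing59.H1map`. -/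
def locH1 {k : Type} [CommRing k] (M : Rep k GQ) (q : ↥S) :
    (globalLevels S).H1 M →ₗ[k]
      (pullLevels (primeLocalToGlobal q.1)).H1 (Rep.res (primeLocalToGlobal q.1) M) :=
  H1map (isCont_local S (primeLocalToGlobal q.1)) (isEquivariant_res (primeLocalToGlobal q.1) M)

theorem locH2_eq_res₂ {k : Type} [CommRing k] (M : Rep k GQ) (q : ↥S) :
    locH2 S M q = (isContinuous_pullLevels S (primeLocalToGlobal q.1)).res₂ M :=
  H2map_id_eq_res₂ M _

theorem locH1_eq_res₁ {k : Type} [CommRing k] (M : Rep k GQ) (q : ↥S) :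
    locH1 S M q = (isContinuous_pullLevels S (primeLocalToGlobal q.1)).res₁ M :=
  H1map_id_eq_res₁ M _

/-- `locH2` is helper15's `locRes₂` at the finite index `Sum.inr q`. -/
theorem locH2_eq_locRes₂ {k : Type} [CommRing k] (M : Rep k GQ) (q : ↥S) :
    locH2 S M q = locRes₂ S M (Sum.inr q) :=
  locH2_eq_res₂ S M q

/-- `locH1` is helper15's `locRes₁` at the finite index `Sum.inr q`. -/
theorem locH1_eq_locRes₁ {k : Type} [CommRing k] (M : Rep k GQ) (q : ↥S) :
    locH1 S M q = locRes₁ S M (Sum.inr q) :=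
  locH1_eq_res₁ S M q

variable {p : ℕ} [Fact p.Prime]

/-- **`Ш²` is cut out by the finite places of `S`, in `Dualizing59` vocabulary.** -/
theorem mem_sha₂_iff_locH2 (hp2 : p ≠ 2) (M : Rep (ZMod p) GQ) (x : continuousH2S S M) :
    x ∈ sha₂ S M ↔ ∀ q : ↥S, locH2 S M q (continuousH2SEquiv S M x) = 0 := by
  rw [ProfinLocal31.Sha.mem_sha₂_iff S hp2]
  refine forall_congr' fun q => ?_
  rw [locH2_eq_res₂, ← continuousH2Equiv_locRes₂S]
  constructor
  · intro h
    rw [h, map_zero]
  · intro h
    exact (continuousH2Equiv (primeLocalToGlobal q.1) (Rep.res (primeLocalToGlobal q.1) M)).injective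
      (h.trans (map_zero _).symm)

/-- **`Ш¹` is cut out by the finite places of `S`, in `Dualizing59` vocabulary.** -/
theorem H1ToH1_mem_sha₁_iff_locH1 (hp2 : p ≠ 2) (A : Rep (ZMod p) GQ)
    (y : (globalLevels S).H1 A) :
    (globalLevels S).H1ToH1 A y ∈ sha₁ S A ↔ ∀ q : ↥S, locH1 S A q y = 0 := by
  rw [ProfinLocal31.Sha.mem_sha₁_iff S hp2]
  have hmem : (globalLevels S).H1ToH1 A y ∈ continuousH1S S A := by
    rw [continuousH1S_eq_range]; exact ⟨y, rfl⟩
  constructor
  · rintro ⟨_, h⟩ q
    rw [locH1_eq_res₁]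
    exact (locRes_H1ToH1_eq_zero_iff S (extArithLoc S) A (Sum.inr q) y).1 (h q)
  · intro h
    refine ⟨hmem, fun q => ?_⟩
    have := h q
    rw [locH1_eq_res₁] at this
    exact (locRes_H1ToH1_eq_zero_iff S (extArithLoc S) A (Sum.inr q) y).2 this

/-- The level-cohomology `Ш²` over the finite places. -/
def Sha2 (M : Rep (ZMod p) GQ) : Submodule (ZMod p) ((globalLevels S).H2 M) :=
  ⨅ q : ↥S, LinearMap.ker (locH2 S M q)

/-- The level-cohomology `Ш¹` over the finite places. -/
def Sha1 (A : Rep (ZMod p) GQ) : Submodule (ZMod p) ((globalLevels S).H1 A) :=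
  ⨅ q : ↥S, LinearMap.ker (locH1 S A q)

/-- `sha₂ S M ≃ Sha2 S M`. -/
def sha₂EquivSha2 (hp2 : p ≠ 2) (M : Rep (ZMod p) GQ) : ↥(sha₂ S M) ≃ₗ[ZMod p] ↥(Sha2 S M) :=
  (continuousH2SEquiv S M).submoduleMap (sha₂ S M) |>.trans
    (LinearEquiv.ofEq _ _ (by
      ext y
      simp only [Submodule.mem_map, Sha2, Submodule.mem_iInf, LinearMap.mem_ker]
      constructor
      · rintro ⟨x, hx, rfl⟩
        exact (mem_sha₂_iff_locH2 S hp2 M x).1 hx
      · intro hy
        refine ⟨(continuousH2SEquiv S M).symm y, (mem_sha₂_iff_locH2 S hp2 M _).2 ?_, by simp⟩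
        simpa using hy))

/-- `Sha1 S A ≃ sha₁ S A`. -/
def Sha1EquivSha₁ (hp2 : p ≠ 2) (A : Rep (ZMod p) GQ) : ↥(Sha1 S A) ≃ₗ[ZMod p] ↥(sha₁ S A) :=
  LinearEquiv.ofBijective
    (((globalLevels S).H1ToH1 A).restrict (p := Sha1 S A) (q := sha₁ S A) (by
      intro y hy
      rw [H1ToH1_mem_sha₁_iff_locH1 S hp2]
      simpa [Sha1, Submodule.mem_iInf] using hy))
    ⟨by
      intro y y' h
      apply Subtype.ext
      exact (globalLevels S).H1ToH1_injective A (congrArg Subtype.val h),
    by
      rintro ⟨x, hx⟩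
      obtain ⟨y, rfl⟩ := exists_of_mem_sha₁ S A hx
      refine ⟨⟨y, ?_⟩, rfl⟩
      have := (H1ToH1_mem_sha₁_iff_locH1 S hp2 A y).1 hx
      simpa [Sha1, Submodule.mem_iInf] using this⟩

/-- **Transport**: equal finite dimensions of the level-cohomology `Ш`'s give the two
finiteness statements and the dimension equality consumed by `Spine15`. -/
theorem dim_of_levelSha (hp2 : p ≠ 2) (M A : Rep (ZMod p) GQ)
    (h1 : FiniteDimensional (ZMod p) ↥(Sha1 S A)) (h2 : FiniteDimensional (ZMod p) ↥(Sha2 S M))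
    (h : Module.finrank (ZMod p) ↥(Sha1 S A) = Module.finrank (ZMod p) ↥(Sha2 S M)) :
    FiniteDimensional (ZMod p) (sha₁ S A) ∧ FiniteDimensional (ZMod p) (sha₂ S M) ∧
      Module.finrank (ZMod p) (sha₁ S A) = Module.finrank (ZMod p) (sha₂ S M) := by
  refine ⟨Module.Finite.equiv (Sha1EquivSha₁ S hp2 A),
    Module.Finite.equiv (sha₂EquivSha2 S hp2 M).symm, ?_⟩
  rw [← (Sha1EquivSha₁ S hp2 A).finrank_eq, (sha₂EquivSha2 S hp2 M).finrank_eq, h]

end Fermat.Agent.S55.Wire41.ShaMap
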