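/-
S55 / TOP-W55 (W4a) (helper41): the finite-level coefficient bookkeeping.

For a normal subgroup `V` of `G_ℚ` acting trivially on `M` and on `μ_p`:

* `levelRep (M.dualTwist (cycloChar p)) V _ ≅ FormalPT.N (levelRep M V _) (levelRep (mu p) V _)`
  in `Rep (ZMod p) (G_ℚ ⧸ V)` (`twistIso`; identity on `Hom_k(M, k)`);
* the two finite-level `Ш¹`'s agree: helper31's `ShaFin.sha1Fin S π N` (classes dying on every
  `decompImage π q`, `q ∈ S`) and helper55's `FormalPT.sha1Fin D M Z` (classes of cocycles that are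
  coboundaries on every `D v`) are both the "locally trivial classes" `locTriv`, which is
  functorial in the module; hence `finrank_sha1Fin_eq`.
-/
import Fermat.Agent.S55.EW55.LevelData

set_option autoImplicit false
set_option linter.unusedSectionVars false

open CategoryTheory groupCohomology Module ExtCitation

noncomputable section

namespace Fermat.Agent.S55.Wire41.FinCoeff

open Fermat.Agent.S55.Profin15 Fermat.Agent.S55.ProfinLocal31 Fermat.Agent.S55.Contract34
open Fermat.Agent.S55.EW55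

/-! ### locally trivial classes, functoriality -/

section Generic

variable {k Γ : Type} [Field k] [Group Γ] {ι : Type} (D : ι → Subgroup Γ)

/-- functoriality of `H¹(Γ, -)` in the module -/
abbrev H1map {A B : Rep.{0} k Γ} (f : A ⟶ B) : H1 A →ₗ[k] H1 B :=
  (groupCohomology.map (MonoidHom.id Γ) f 1).hom

/-- push-forward of cocycles -/
abbrev pushCocycle {A B : Rep.{0} k Γ} (f : A ⟶ B) (c : cocycles₁ A) : cocycles₁ B :=
  (mapCocycles₁ (MonoidHom.id Γ) f).hom c

lemma pushCocycle_apply {A B : Rep.{0} k Γ} (f : A ⟶ B) (c : cocycles₁ A) (g : Γ) :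
    (pushCocycle f c : Γ → B) g = f.hom (c g) := rfl

lemma H1map_H1π {A B : Rep.{0} k Γ} (f : A ⟶ B) (c : cocycles₁ A) :
    H1map f ((H1π A).hom c) = (H1π B).hom (pushCocycle f c) :=
  H1π_comp_map_apply (MonoidHom.id Γ) f c

/-- the isomorphism `H¹(Γ, A) ≃ H¹(Γ, B)` induced by `e : A ≅ B` -/
def H1Equiv {A B : Rep.{0} k Γ} (e : A ≅ B) : H1 A ≃ₗ[k] H1 B :=
  ((groupCohomology.functor k Γ 1).mapIso e).toLinearEquiv

lemma H1Equiv_apply {A B : Rep.{0} k Γ} (e : A ≅ B) (x : H1 A) :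
    H1Equiv e x = H1map e.hom x := rfl

lemma H1Equiv_symm_apply {A B : Rep.{0} k Γ} (e : A ≅ B) (y : H1 B) :
    (H1Equiv e).symm y = H1map e.inv y := rfl

/-- the classes of `H¹(Γ, A)` which die on every `D v` -/
def locTriv (A : Rep.{0} k Γ) : Submodule k (H1 A) :=
  ⨅ v, LinearMap.ker (LevelStr.resH1 A (D v))

lemma mem_locTriv_iff (A : Rep.{0} k Γ) (x : H1 A) :
    x ∈ locTriv D A ↔ ∀ v, LevelStr.resH1 A (D v) x = 0 := by
  simp only [locTriv, Submodule.mem_iInf, LinearMap.mem_ker]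

/-- cocycle criterion -/
theorem H1π_mem_locTriv_iff (A : Rep.{0} k Γ) (c : cocycles₁ A) :
    (H1π A).hom c ∈ locTriv D A ↔ ∀ v, ∃ n : A, ∀ d ∈ D v, c d = A.ρ d n - n := by
  rw [mem_locTriv_iff]
  exact forall_congr' fun v => LevelStr.resH1_H1π_eq_zero_iff c (D v)

/-- push-forward preserves local triviality -/
theorem H1map_mem_locTriv {A B : Rep.{0} k Γ} (f : A ⟶ B) {x : H1 A} (hx : x ∈ locTriv D A) :
    H1map f x ∈ locTriv D B := by
  induction x using H1_induction_on with | @h c =>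
  rw [H1map_H1π, H1π_mem_locTriv_iff]
  rw [H1π_mem_locTriv_iff] at hx
  intro v
  obtain ⟨n, hn⟩ := hx v
  refine ⟨f.hom n, fun d hd => ?_⟩
  rw [pushCocycle_apply, hn d hd, map_sub, Rep.hom_comm_apply]

/-- **transport of the locally trivial classes along an isomorphism of representations** -/
def locTrivEquiv {A B : Rep.{0} k Γ} (e : A ≅ B) : ↥(locTriv D A) ≃ₗ[k] ↥(locTriv D B) :=
  LinearEquiv.ofSubmodules (H1Equiv e) (locTriv D A) (locTriv D B) (by
    apply le_antisymm
    · rintro _ ⟨x, hx, rfl⟩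
      exact H1map_mem_locTriv D e.hom hx
    · intro y hy
      refine ⟨(H1Equiv e).symm y, ?_, (H1Equiv e).apply_symm_apply y⟩
      exact H1map_mem_locTriv D e.inv hy)

theorem finrank_locTriv_eq {A B : Rep.{0} k Γ} (e : A ≅ B) :
    finrank k ↥(locTriv D A) = finrank k ↥(locTriv D B) :=
  (locTrivEquiv D e).finrank_eq

/-- helper55's finite-level `Ш¹` is the module of locally trivial classes of `Hom_k(M, Z)` -/
theorem formalPT_sha1Fin_eq [Fintype ι] (M Z : Rep.{0} k Γ) :
    FormalPT.sha1Fin D M Z = locTriv D (FormalPT.N M Z) := by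
  ext x
  rw [FormalPT.mem_sha1Fin_iff]
  constructor
  · rintro ⟨c, hc, rfl⟩
    exact (H1π_mem_locTriv_iff D _ c).2 hc
  · intro hx
    induction x using H1_induction_on with | @h c =>
    exact ⟨c, (H1π_mem_locTriv_iff D _ c).1 hx, rfl⟩

end Generic

/-- helper31's finite-level `Ш¹` is the module of locally trivial classes for the decomposition
groups at `q ∈ S` -/
theorem shaFin_sha1Fin_eq {k Γ : Type} [Field k] [Group Γ] (S : Finset Nat.Primes)
    (π : (AlgebraicClosure ℚ ≃ₐ[ℚ] AlgebraicClosure ℚ) →* Γ) (N : Rep.{0} k Γ) :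
    ShaFin.sha1Fin S π N = locTriv (fun q : ↥S => ShaFin.decompImage π q.1) N := by
  ext x
  rw [ShaFin.mem_sha1Fin_iff, mem_locTriv_iff]
  exact ⟨fun h q => h q.1 q.2, fun h q hq => h ⟨q, hq⟩⟩

/-! ### the Tate twist at a finite level -/

section Twist

/-- `G_ℚ` -/
abbrev GQ41 : Type := AlgebraicClosure ℚ ≃ₐ[ℚ] AlgebraicClosure ℚ

variable {p : ℕ} [Fact p.Prime] (V : Subgroup GQ41) [V.Normal] (M : Rep.{0} (ZMod p) GQ41)

lemma mu_ρ_apply (g : GQ41) (z : mu p) :
    (mu p).ρ g z = ((cycloChar p g : ZMod p) • (z : ZMod p) : ZMod p) := rfl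

/-- the cyclotomic character is trivial on a subgroup acting trivially on `μ_p` -/
theorem cycloChar_eq_one_of_mem (hμ : V ≤ (mu p).ρ.ker) {s : GQ41} (hs : s ∈ V) :
    cycloChar p s = 1 := by
  have h1 : (mu p).ρ s = 1 := MonoidHom.mem_ker.1 (hμ hs)
  have h2 := mu_ρ_apply (p := p) s (1 : ZMod p)
  rw [h1, Module.End.one_apply, smul_eq_mul, mul_one] at h2
  exact Units.ext h2.symm

/-- `V` acts trivially on the Tate dual -/
theorem le_ker_dualTwist (hM : V ≤ M.ρ.ker) (hμ : V ≤ (mu p).ρ.ker) :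
    V ≤ (M.dualTwist (cycloChar p)).ρ.ker := by
  intro s hs
  rw [MonoidHom.mem_ker]
  apply LinearMap.ext
  intro f
  have hs' : s⁻¹ ∈ V := V.inv_mem hs
  have h1 : M.ρ s⁻¹ = 1 := MonoidHom.mem_ker.1 (hM hs')
  rw [Rep.dualTwist_ρ_apply, cycloChar_eq_one_of_mem V hμ hs, h1, Units.val_one, one_smul,
    Module.End.one_apply]
  rfl

variable (hM : V ≤ M.ρ.ker) (hμ : V ≤ (mu p).ρ.ker)

/-- the underlying linear identification `Hom_k(M, k) = Hom_k(M, μ_p)` -/
def twistLin :
    ↥(LevelModel.levelRep (M.dualTwist (cycloChar p)) V (le_ker_dualTwist V M hM hμ)) ≃ₗ[ZMod p]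
      ↥(FormalPT.N (LevelModel.levelRep M V hM) (LevelModel.levelRep (mu p) V hμ)) :=
  LinearEquiv.refl (ZMod p) (Module.Dual (ZMod p) M)

lemma twistLin_apply (f : Module.Dual (ZMod p) M) (m : M) :
    (twistLin V M hM hμ f : M →ₗ[ZMod p] ZMod p) m = f m := rfl

theorem twistLin_equivariant (γ : GQ41 ⧸ V)
    (f : ↥(LevelModel.levelRep (M.dualTwist (cycloChar p)) V (le_ker_dualTwist V M hM hμ))) :
    twistLin V M hM hμ
        ((LevelModel.levelRep (M.dualTwist (cycloChar p)) V (le_ker_dualTwist V M hM hμ)).ρ γ f) =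
      (FormalPT.N (LevelModel.levelRep M V hM) (LevelModel.levelRep (mu p) V hμ)).ρ γ
        (twistLin V M hM hμ f) := by
  induction γ using QuotientGroup.induction_on with
  | H g =>
    apply LinearMap.ext
    intro m
    rw [FormalPT.N_ρ_apply]
    rfl

/-- **(W4a)** the Tate dual at the finite level `G_ℚ ⧸ V` is `Hom_k(M_V, μ_V)` with the conjugation
action -/
def twistIso :
    LevelModel.levelRep (M.dualTwist (cycloChar p)) V (le_ker_dualTwist V M hM hμ) ≅
      FormalPT.N (LevelModel.levelRep M V hM) (LevelModel.levelRep (mu p) V hμ) where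
  hom := Rep.ofHom
    (ρ := (LevelModel.levelRep (M.dualTwist (cycloChar p)) V (le_ker_dualTwist V M hM hμ)).ρ)
    (σ := (FormalPT.N (LevelModel.levelRep M V hM) (LevelModel.levelRep (mu p) V hμ)).ρ)
    ⟨(twistLin V M hM hμ).toLinearMap, fun γ =>
      LinearMap.ext fun f => twistLin_equivariant V M hM hμ γ f⟩
  inv := Rep.ofHom
    (ρ := (FormalPT.N (LevelModel.levelRep M V hM) (LevelModel.levelRep (mu p) V hμ)).ρ)
    (σ := (LevelModel.levelRep (M.dualTwist (cycloChar p)) V (le_ker_dualTwist V M hM hμ)).ρ)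
    ⟨(twistLin V M hM hμ).symm.toLinearMap, fun γ =>
      LinearMap.ext fun f => (twistLin_equivariant V M hM hμ γ f).symm⟩
  hom_inv_id := rfl
  inv_hom_id := rfl

lemma twistIso_hom_apply
    (f : ↥(LevelModel.levelRep (M.dualTwist (cycloChar p)) V (le_ker_dualTwist V M hM hμ)))
    (m : M) :
    (((twistIso V M hM hμ).hom.hom f :
      ↥(FormalPT.N (LevelModel.levelRep M V hM) (LevelModel.levelRep (mu p) V hμ))) :
        M →ₗ[ZMod p] ZMod p) m = (show Module.Dual (ZMod p) M from f) m := rfl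

/-- **(W4a)** the two finite-level `Ш¹`'s have the same dimension: helper31's
`ShaFin.sha1Fin` of the Tate dual and helper55's `FormalPT.sha1Fin` of `(M_V, μ_V)`. -/
theorem finrank_sha1Fin_eq (S : Finset Nat.Primes)
    (h' : V ≤ (M.dualTwist (cycloChar p)).ρ.ker) :
    finrank (ZMod p) ↥(ShaFin.sha1Fin S (QuotientGroup.mk' V)
        (LevelModel.levelRep (M.dualTwist (cycloChar p)) V h')) =
      finrank (ZMod p) ↥(FormalPT.sha1Fin (LevelData.DS S V) (LevelModel.levelRep M V hM)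
        (Inst.muV V hμ)) := by
  rw [shaFin_sha1Fin_eq, formalPT_sha1Fin_eq]
  exact finrank_locTriv_eq (fun q : ↥S => ShaFin.decompImage (QuotientGroup.mk' V) q.1)
    (twistIso V M hM hμ)

/-- the linear equivalence behind `finrank_sha1Fin_eq` -/
def sha1FinEquiv (S : Finset Nat.Primes) (h' : V ≤ (M.dualTwist (cycloChar p)).ρ.ker) :
    ↥(ShaFin.sha1Fin S (QuotientGroup.mk' V)
        (LevelModel.levelRep (M.dualTwist (cycloChar p)) V h')) ≃ₗ[ZMod p]
      ↥(FormalPT.sha1Fin (LevelData.DS S V) (LevelModel.levelRep M V hM) (Inst.muV V hμ)) :=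
  (LinearEquiv.ofEq _ _ (shaFin_sha1Fin_eq S (QuotientGroup.mk' V) _)) ≪≫ₗ
    (locTrivEquiv (fun q : ↥S => ShaFin.decompImage (QuotientGroup.mk' V) q.1)
      (twistIso V M hM hμ)) ≪≫ₗ
    (LinearEquiv.ofEq _ _ (formalPT_sha1Fin_eq (LevelData.DS S V) (LevelModel.levelRep M V hM)
      (Inst.muV V hμ)).symm)

end Twist

end Fermat.Agent.S55.Wire41.FinCoeff
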