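/-
S55 / TOP-W55 (W4a), literal form (helper41): helper25's named Prop
`FormalTop25.OfLevelData.W4a p S` is a theorem (`Wire41.FinCoeff.finrank_sha1Fin_eq`).
-/
import Fermat.Agent.S55.Wire41.FinCoeff
import Fermat.Agent.S55.FormalTop25.OfLevelData

set_option autoImplicit false

namespace Fermat.Agent.S55.Wire41.W4a

open Fermat.Agent.S55.Profin15

/-- **(W4a)** literally. -/
theorem w4a (p : ℕ) [Fact p.Prime] (S : Finset Nat.Primes) :
    Fermat.Agent.S55.FormalTop25.OfLevelData.W4a p S := by
  intro V hV hμ M _ hM hM'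
  have := (globalLevels S).normal V hV
  exact FinCoeff.finrank_sha1Fin_eq V M hM hμ S hM'

end Fermat.Agent.S55.Wire41.W4a
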