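/-
S55 / route W59, wiring item (i) of helper59's split (helper34): the permutation module
`Contract34.perm p V = 𝔽_p[G_ℚ/V]` (Mathlib `Rep.ofMulAction`, carrier `MonoidAlgebra`) versus the
function module `Dualizing59.coind V 𝔽_p = 𝔽_p^(G_ℚ/V)`:

* `permCoindEquiv p V : perm p V ≃ₗ coind V 𝔽_p`, equivariant (`permCoindEquiv_ρ`);
* for `V` acting trivially on `μ_p`: the equivariant perfect pairing
  `pairPerm p hV : perm p V →ₗ coind V 𝔽_p →ₗ μ_p`, `(δ_x, f) ↦ χ(x) • f x`
  (`pairPerm_equivariant` = binder `hBeq`, `pairPerm_bijective` = binder `hBbij` of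
  `Dualizing11.finrank_Sha1_eq_finrank_Sha2_of_plugs` / `formulaA59` with `M = coind V 𝔽_p`,
  `M' = perm p V`);
* the induced equivariant iso `permDualTwistEquiv p hV : perm p V ≃ₗ (coind V 𝔽_p).dualTwist χ`.
-/
import Fermat.Agent.S55.Contract34
import Fermat.Agent.S55.Dualizing59.Perm

set_option autoImplicit false

open CategoryTheory Module groupCohomology ExtCitation
open Fermat.Agent.S55.Profin15
open Fermat.Agent.Lib.FrobeniusExists (Qb GQ)

noncomputable section

namespace Fermat.Agent.S55.Wire41.PermCoind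

open Fermat.Agent.S55.Contract34 Fermat.Agent.S55.Dualizing59

variable (p : ℕ) [Fact p.Prime]

/-! ### coordinates on the two carriers -/

section Coord

variable (V : Subgroup GQ)

/-- the function module `𝔽_p^(G/V)` of `Dualizing59` -/
abbrev Cd : Rep.{0} (ZMod p) GQ := coind (k := ZMod p) V (ZMod p)

variable {p V}

/-- value of an element of `coind V 𝔽_p` at a coset -/
def ev (f : ↥(Cd p V)) (x : GQ ⧸ V) : ZMod p := (f : GQ ⧸ V → ZMod p) x

/-- an element of `coind V 𝔽_p` from a function -/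
def mkFun (φ : GQ ⧸ V → ZMod p) : ↥(Cd p V) := φ

@[simp] theorem ev_mkFun (φ : GQ ⧸ V → ZMod p) (x : GQ ⧸ V) : ev (mkFun φ : ↥(Cd p V)) x = φ x := rfl
@[simp] theorem ev_add (f g : ↥(Cd p V)) (x : GQ ⧸ V) : ev (f + g) x = ev f x + ev g x := rfl
@[simp] theorem ev_zero (x : GQ ⧸ V) : ev (0 : ↥(Cd p V)) x = 0 := rfl
@[simp] theorem ev_smul (c : ZMod p) (f : ↥(Cd p V)) (x : GQ ⧸ V) : ev (c • f) x = c * ev f x := rfl
theorem ev_ρ (g : GQ) (f : ↥(Cd p V)) (x : GQ ⧸ V) : ev ((Cd p V).ρ g f) x = ev f (g⁻¹ • x) := rfl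
theorem ev_ext {f g : ↥(Cd p V)} (h : ∀ x, ev f x = ev g x) : f = g := funext h

/-- coefficient of an element of `perm p V` at a coset -/
def co (m : ↥(perm p V)) (x : GQ ⧸ V) : ZMod p :=
  MonoidAlgebra.coeff (m : MonoidAlgebra (ZMod p) (GQ ⧸ V)) x

@[simp] theorem co_add (m n : ↥(perm p V)) (x : GQ ⧸ V) : co (m + n) x = co m x + co n x := rfl
@[simp] theorem co_zero (x : GQ ⧸ V) : co (0 : ↥(perm p V)) x = 0 := rfl
@[simp] theorem co_smul (c : ZMod p) (m : ↥(perm p V)) (x : GQ ⧸ V) : co (c • m) x = c * co m x :=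
  rfl
theorem co_ρ (g : GQ) (m : ↥(perm p V)) (x : GQ ⧸ V) : co ((perm p V).ρ g m) x = co m (g⁻¹ • x) :=
  Representation.coeff_ofMulAction g _ x

end Coord

/-! ### `perm p V ≃ coind V 𝔽_p` -/

section Equiv

variable (V : Subgroup GQ) [Finite (GQ ⧸ V)]

/-- coefficients: `𝔽_p[G/V] ≃ 𝔽_p^(G/V)` -/
def permCoindEquiv : ↥(perm p V) ≃ₗ[ZMod p] ↥(Cd p V) :=
  ((MonoidAlgebra.coeffLinearEquiv (ZMod p) : MonoidAlgebra (ZMod p) (GQ ⧸ V) ≃ₗ[ZMod p] _).trans
    (Finsupp.linearEquivFunOnFinite (ZMod p) (ZMod p) (GQ ⧸ V)) :)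

variable {V}

@[simp] theorem ev_permCoindEquiv (m : ↥(perm p V)) (x : GQ ⧸ V) :
    ev (permCoindEquiv p V m) x = co m x := rfl

theorem co_ext {m n : ↥(perm p V)} (h : ∀ x, co m x = co n x) : m = n := by
  apply (permCoindEquiv p V).injective
  exact ev_ext fun x => by rw [ev_permCoindEquiv, ev_permCoindEquiv, h x]

@[simp] theorem co_permCoindEquiv_symm (f : ↥(Cd p V)) (x : GQ ⧸ V) :
    co ((permCoindEquiv p V).symm f) x = ev f x := by
  rw [← ev_permCoindEquiv, LinearEquiv.apply_symm_apply]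

/-- equivariance of `permCoindEquiv` -/
theorem permCoindEquiv_ρ (g : GQ) (m : ↥(perm p V)) :
    permCoindEquiv p V ((perm p V).ρ g m) = (Cd p V).ρ g (permCoindEquiv p V m) :=
  ev_ext fun x => by rw [ev_permCoindEquiv, ev_ρ, ev_permCoindEquiv, co_ρ]

theorem permCoindEquiv_symm_ρ (g : GQ) (f : ↥(Cd p V)) :
    (permCoindEquiv p V).symm ((Cd p V).ρ g f) = (perm p V).ρ g ((permCoindEquiv p V).symm f) := by
  apply (permCoindEquiv p V).injective
  rw [permCoindEquiv_ρ, LinearEquiv.apply_symm_apply, LinearEquiv.apply_symm_apply]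

end Equiv

/-! ### the cyclotomic character on `G/V` -/

section Chi

variable {p}
variable {V : Subgroup GQ} (hV : ∀ s ∈ V, cycloChar p s = 1)

/-- `χ` on `G/V` (left cosets), well defined because `χ` is trivial on `V`. -/
def chiBar : GQ ⧸ V → (ZMod p)ˣ :=
  fun x => Quotient.liftOn' x (fun g => cycloChar p g) (by
    intro a b hab
    have h : a⁻¹ * b ∈ V := QuotientGroup.leftRel_apply.1 hab
    have hb : b = a * (a⁻¹ * b) := by group
    show cycloChar p a = cycloChar p b
    rw [hb, map_mul, hV _ h, mul_one])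

theorem chiBar_mk (g : GQ) : chiBar hV (g : GQ ⧸ V) = cycloChar p g := rfl

theorem chiBar_smul (g : GQ) (x : GQ ⧸ V) :
    chiBar hV (g • x) = cycloChar p g * chiBar hV x := by
  induction x using QuotientGroup.induction_on with
  | H h =>
    show chiBar hV ((g * h : GQ) : GQ ⧸ V) = _
    rw [chiBar_mk, chiBar_mk, map_mul]

end Chi

/-! ### the pairing `perm p V × coind V 𝔽_p → μ_p` -/

section Pairing

variable {V : Subgroup GQ} [Fintype (GQ ⧸ V)] (hV : ∀ s ∈ V, cycloChar p s = 1)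

/-- the value of the pairing, in `ZMod p` -/
def pairVal (m' : ↥(perm p V)) (f : ↥(Cd p V)) : ZMod p :=
  ∑ x : GQ ⧸ V, ((chiBar hV x : (ZMod p)ˣ) : ZMod p) * (co m' x * ev f x)

/-- `(m', f) ↦ ∑ₓ χ(x) • m'(x) • f(x)` with values in `μ_p` (carrier `ZMod p`). -/
def pairPerm : ↥(perm p V) →ₗ[ZMod p] ↥(Cd p V) →ₗ[ZMod p] ↥(mu p) :=
  LinearMap.mk₂ (ZMod p) (fun m' f => (pairVal p hV m' f : ZMod p))
    (by
      intro m₁ m₂ f
      show pairVal p hV (m₁ + m₂) f = pairVal p hV m₁ f + pairVal p hV m₂ f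
      unfold pairVal
      rw [← Finset.sum_add_distrib]
      refine Finset.sum_congr rfl fun x _ => ?_
      rw [co_add]
      ring)
    (by
      intro c m f
      show pairVal p hV (c • m) f = c * pairVal p hV m f
      unfold pairVal
      rw [Finset.mul_sum]
      refine Finset.sum_congr rfl fun x _ => ?_
      rw [co_smul]
      ring)
    (by
      intro m f₁ f₂
      show pairVal p hV m (f₁ + f₂) = pairVal p hV m f₁ + pairVal p hV m f₂
      unfold pairVal
      rw [← Finset.sum_add_distrib]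
      refine Finset.sum_congr rfl fun x _ => ?_
      rw [ev_add]
      ring)
    (by
      intro c m f
      show pairVal p hV m (c • f) = c * pairVal p hV m f
      unfold pairVal
      rw [Finset.mul_sum]
      refine Finset.sum_congr rfl fun x _ => ?_
      rw [ev_smul]
      ring)

/-- the carrier of `μ_p` is `ZMod p` -/
def muVal (t : ↥(mu p)) : ZMod p := t

theorem muVal_injective : Function.Injective (muVal p) := fun _ _ h => h

theorem muVal_ρ (g : GQ) (t : ↥(mu p)) :
    muVal p ((mu p).ρ g t) = ((cycloChar p g : (ZMod p)ˣ) : ZMod p) * muVal p t := rfl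

theorem muVal_pairPerm (m' : ↥(perm p V)) (f : ↥(Cd p V)) :
    muVal p (pairPerm p hV m' f) =
      ∑ x : GQ ⧸ V, ((chiBar hV x : (ZMod p)ˣ) : ZMod p) * (co m' x * ev f x) := rfl

/-- **equivariance** (binder `hBeq`): `B (g m') (g f) = g (B m' f)`. -/
theorem pairPerm_equivariant (g : GQ) (m' : ↥(perm p V)) (f : ↥(Cd p V)) :
    pairPerm p hV ((perm p V).ρ g m') ((Cd p V).ρ g f) = (mu p).ρ g (pairPerm p hV m' f) := by
  apply muVal_injective
  rw [muVal_ρ, muVal_pairPerm, muVal_pairPerm, Finset.mul_sum]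
  refine Fintype.sum_equiv (MulAction.toPerm g⁻¹) _ _ fun x => ?_
  simp only [MulAction.toPerm_apply]
  rw [co_ρ, ev_ρ]
  have hx : chiBar hV x = cycloChar p g * chiBar hV (g⁻¹ • x) := by
    rw [← chiBar_smul, smul_inv_smul]
  rw [hx, Units.val_mul]
  ring

open scoped Classical in
theorem muVal_pairPerm_single (x : GQ ⧸ V) (m' : ↥(perm p V)) :
    muVal p (pairPerm p hV m' (mkFun (Pi.single x (1 : ZMod p)))) =
      ((chiBar hV x : (ZMod p)ˣ) : ZMod p) * co m' x := by
  rw [muVal_pairPerm, Finset.sum_eq_single x]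
  · rw [ev_mkFun, Pi.single_eq_same, mul_one]
  · intro y _ hy
    rw [ev_mkFun, Pi.single_eq_of_ne hy, mul_zero, mul_zero]
  · intro h
    exact absurd (Finset.mem_univ x) h

theorem pairPerm_injective : Function.Injective (pairPerm p hV) := by
  classical
  rw [injective_iff_map_eq_zero]
  intro m' hm
  refine co_ext p fun x => ?_
  have h := muVal_pairPerm_single p hV x m'
  rw [hm] at h
  have h0 : ((chiBar hV x : (ZMod p)ˣ) : ZMod p) * co m' x = 0 := h.symm
  rcases mul_eq_zero.1 h0 with h1 | h1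
  · exact absurd h1 (Units.ne_zero _)
  · rw [h1, co_zero]

/-- **perfectness** (binder `hBbij`). -/
theorem pairPerm_bijective : Function.Bijective (pairPerm p hV) := by
  classical
  refine ⟨pairPerm_injective p hV, fun φ => ?_⟩
  -- the preimage has coefficient `χ(x)⁻¹ • φ(δ_x)` at `x`
  let c : GQ ⧸ V → ZMod p := fun x =>
    (((chiBar hV x)⁻¹ : (ZMod p)ˣ) : ZMod p) * muVal p (φ (mkFun (Pi.single x (1 : ZMod p))))
  refine ⟨(permCoindEquiv p V).symm (mkFun c), ?_⟩
  apply LinearMap.ext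
  intro f
  apply muVal_injective
  rw [muVal_pairPerm]
  have hf : f = ∑ x : GQ ⧸ V, ev f x • (mkFun (Pi.single x (1 : ZMod p)) : ↥(Cd p V)) := by
    refine ev_ext fun y => ?_
    have hsum : ∀ (s : Finset (GQ ⧸ V)) (F : GQ ⧸ V → ↥(Cd p V)),
        ev (∑ x ∈ s, F x) y = ∑ x ∈ s, ev (F x) y := by
      intro s F
      induction s using Finset.induction_on with
      | empty => simp
      | insert a s ha ih => rw [Finset.sum_insert ha, Finset.sum_insert ha, ev_add, ih]
    rw [hsum, Finset.sum_eq_single y]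
    · rw [ev_smul, ev_mkFun, Pi.single_eq_same, mul_one]
    · intro z _ hz
      rw [ev_smul, ev_mkFun, Pi.single_eq_of_ne' hz, mul_zero]
    · intro h
      exact absurd (Finset.mem_univ y) h
  have hφ : muVal p (φ f) =
      ∑ x : GQ ⧸ V, ev f x * muVal p (φ (mkFun (Pi.single x (1 : ZMod p)))) := by
    conv_lhs => rw [hf, map_sum]
    have hsum : ∀ (s : Finset (GQ ⧸ V)) (F : GQ ⧸ V → ↥(mu p)),
        muVal p (∑ x ∈ s, F x) = ∑ x ∈ s, muVal p (F x) := by
      intro s F
      induction s using Finset.induction_on with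
      | empty => rfl
      | insert a s ha ih =>
        rw [Finset.sum_insert ha, Finset.sum_insert ha, ← ih]
        rfl
    rw [hsum]
    refine Finset.sum_congr rfl fun x _ => ?_
    rw [map_smul]
    rfl
  rw [hφ]
  refine Finset.sum_congr rfl fun x _ => ?_
  rw [co_permCoindEquiv_symm, ev_mkFun]
  show ((chiBar hV x : (ZMod p)ˣ) : ZMod p) *
      ((((chiBar hV x)⁻¹ : (ZMod p)ˣ) : ZMod p) * _ * ev f x) = _
  rw [← mul_assoc, ← mul_assoc, Units.mul_inv, one_mul, mul_comm]

/-- the pairing as an isomorphism onto the Tate dual `(coind V 𝔽_p)* (1)` -/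
def permDualTwistEquiv :
    ↥(perm p V) ≃ₗ[ZMod p] ↥((Cd p V).dualTwist (cycloChar p)) :=
  LinearEquiv.ofBijective
    (pairPerm p hV : ↥(perm p V) →ₗ[ZMod p] (↥(Cd p V) →ₗ[ZMod p] ZMod p))
    (pairPerm_bijective p hV)

theorem permDualTwistEquiv_apply (m' : ↥(perm p V)) (f : ↥(Cd p V)) :
    (permDualTwistEquiv p hV m' : Module.Dual (ZMod p) ↥(Cd p V)) f =
      muVal p (pairPerm p hV m' f) := rfl

/-- equivariance of `permDualTwistEquiv` -/
theorem permDualTwistEquiv_ρ (g : GQ) (m' : ↥(perm p V)) :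
    permDualTwistEquiv p hV ((perm p V).ρ g m') =
      ((Cd p V).dualTwist (cycloChar p)).ρ g (permDualTwistEquiv p hV m') := by
  apply LinearMap.ext
  intro f
  rw [Rep.dualTwist_ρ_apply]
  show muVal p (pairPerm p hV ((perm p V).ρ g m') f) =
    ((cycloChar p g : (ZMod p)ˣ) : ZMod p) * muVal p (pairPerm p hV m' ((Cd p V).ρ g⁻¹ f))
  have hf : f = (Cd p V).ρ g ((Cd p V).ρ g⁻¹ f) := by
    rw [← Module.End.mul_apply, ← map_mul, mul_inv_cancel, map_one, Module.End.one_apply]
  conv_lhs => rw [hf]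
  rw [pairPerm_equivariant, muVal_ρ]

end Pairing

/-! ### the contract's hypothesis form -/

/-- the contract states "`μ_p` is trivial on `U`" as `(mu p).ρ s = 1`; this is `χ s = 1`. -/
theorem cycloChar_eq_one_of_mu_ρ {s : GQ} (hs : (mu p).ρ s = 1) : cycloChar p s = 1 := by
  have h := congrArg (fun φ : Module.End (ZMod p) ↥(mu p) => muVal p (φ (1 : ZMod p))) hs
  have h' : ((cycloChar p s : (ZMod p)ˣ) : ZMod p) * 1 = 1 := h
  rw [mul_one] at h'
  exact Units.ext h'

end Fermat.Agent.S55.Wire41.PermCoind
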