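/-
S55 / route W59 (helper34): packaging of `Wire41.PermCoind.permCoindEquiv` in the two consumer
shapes: helper59's `Dualizing59.EqIso` (transport of `H2`, `Sha1`, `Sha2`, `range locAll₂`) and
helper15's `Profin15.LevelStr.IsEquivariant`.
-/
import Fermat.Agent.S55.Wire41.PermCoind
import Fermat.Agent.S55.Dualizing59.Iso

set_option autoImplicit false

open CategoryTheory Module groupCohomology ExtCitation
open Fermat.Agent.S55.Profin15
open Fermat.Agent.Lib.FrobeniusExists (Qb GQ)

noncomputable section

namespace Fermat.Agent.S55.Wire41.PermCoind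

open Fermat.Agent.S55.Contract34 Fermat.Agent.S55.Dualizing59

variable (p : ℕ) [Fact p.Prime] (V : Subgroup GQ) [Finite (GQ ⧸ V)]

/-- `perm p V ≅ coind V 𝔽_p` as an equivariant isomorphism (helper59's `EqIso`). -/
def permCoindEqIso : EqIso (perm p V) (Cd p V) where
  toEquiv := permCoindEquiv p V
  equivariant := permCoindEquiv_ρ p

@[simp] theorem permCoindEqIso_toEquiv : (permCoindEqIso p V).toEquiv = permCoindEquiv p V := rfl

/-- equivariance in the `Profin15.LevelStr.IsEquivariant` shape -/
theorem permCoindEquiv_isEquivariant :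
    LevelStr.IsEquivariant (A := perm p V) (B := Cd p V) (permCoindEquiv p V).toLinearMap :=
  fun g a => permCoindEquiv_ρ p g a

theorem permCoindEquiv_symm_isEquivariant :
    LevelStr.IsEquivariant (A := Cd p V) (B := perm p V) (permCoindEquiv p V).symm.toLinearMap :=
  fun g a => permCoindEquiv_symm_ρ p g a

/-- `permDualTwistEquiv` as an `EqIso`: `perm p V ≅ (coind V 𝔽_p)^*(1)` for `V` fixing `μ_p`. -/
def permDualTwistEqIso [Fintype (GQ ⧸ V)] (hV : ∀ s ∈ V, cycloChar p s = 1) :
    EqIso (perm p V) ((Cd p V).dualTwist (cycloChar p)) where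
  toEquiv := permDualTwistEquiv p hV
  equivariant := permDualTwistEquiv_ρ p hV

end Fermat.Agent.S55.Wire41.PermCoind
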